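import Fermat.Agent.S19.H195.GenusDatum
import Fermat.Agent.A3.H499.OrthDatum
import Fermat.Agent.S37.Red.H940.MainStatement

/-!
# A3 / GR-GENUS (helper195), part 4: equal genus from `G.Good` ALONE

`GenusGood.genusFF_eq` : for a reduction datum `G : S37.Red.Datum A π F Fk` with good charts over
algebraically closed constants (`K` of characteristic `0`), with `[FF1 K F]`, `[FF1 k Fk]`:

    genusFF K F = genusFF k Fk.

No further input: the place map comes from `S37.Red.H940.exists_isRed` (RED-MAIN), the
orthonormal bases from `A3.H499.orthonormal_of_good'` (with the trivial group), the inequality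
`≤` from `genusFF_le_of_good` (pencil lifting), the inequality `≥` from upper semicontinuity.

So the leaf GENUS of every GOODRED-INST assembly is a consequence of the datum leaf
(`S37.Core.DatumStatement` / `S37.Red.ModDatum`).
-/

set_option autoImplicit false
set_option linter.unusedSectionVars false

noncomputable section

open AlgebraicCurve

namespace Fermat.Agent.S19.H195

open Fermat.Agent.Lib.RR Fermat.Agent.S37.Red

namespace GenusGood

universe u

variable {K k F Fk : Type u} [Field K] [Field k] [Field F] [Field Fk]
  [Algebra K F] [Algebra k Fk] {A : ValuationSubring K} {π : A →+* k} (G : Datum A π F Fk)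

/-- **GR-GENUS from `G.Good` alone.** -/
theorem genusFF_eq [IsAlgClosed K] [CharZero K] [IsAlgClosed k] [FF1 K F] [FF1 k Fk]
    (hG : G.Good) : genusFF K F = genusFF k Fk := by
  obtain ⟨r, hr, -⟩ := H940.exists_isRed G hG
  have horth := Fermat.Agent.A3.H499.orthonormal_of_good' G hG inferInstance ⊥
    (fun g hg => by rw [Subgroup.mem_bot.mp hg, one_smul])
    (fun c => by
      obtain ⟨f, hf⟩ := G.ρ_surj c
      exact ⟨f, hf, fun g hg => by rw [Subgroup.mem_bot.mp hg, one_smul]⟩)
  refine genusFF_eq_of_good_isRed G hG r hr fun D => ?_
  obtain ⟨n, b, h1, h2, h3, -⟩ := horth D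
  exact ⟨n, b, h1, h2, h3⟩

end GenusGood

end Fermat.Agent.S19.H195

end
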