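import Fermat.Agent.S19.H195.RedDatum

/-!
# A3 / LOCAL D1–D2 (helper195): maximum principle, surjectivity of `r`, specialisation of classes

For an abstract reduction datum `R : RedDatum K F k Fk` (see `RedDatum.lean`):

* `RedDatum.le_mapDomain_apply`  `D P ≤ (r_* D)(r P)` when `D ≥ 0` on the residue disc of `P`;
* `RedDatum.max_principle`  **D1**: if `f ∈ V` has no poles in the residue disc `r⁻¹(r P)` and
  `f(P) = c`, then `c ∈ O = V ∩ K` and `(red f)(r P) = red c`;
* `RedDatum.r_surjective`   **D2a**: `r` is onto (if `red` is onto);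
* `RedDatum.mapDomain_mem_principal`, `RedDatum.sp`  **D2b**: `r_*` maps principal divisors to
  principal divisors, hence induces `sp : Pic0 K F →+ Pic0 k Fk` (needs the scaling axiom);
* `RedDatum.eq_of_sp_of_ell_eq_one`-type uniqueness is in `Lib/RR/H439`.

(D2c, integral Riemann–Roch, is `RedDatum.redL_eq` / `exists_lattice_basis` in `RedDatum.lean`.)
-/

set_option autoImplicit false

noncomputable section

open AlgebraicCurve Fermat.Agent.Lib.RR

namespace Fermat.Agent.S19.H195

universe u₁ u₂ u₃ u₄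

variable {K : Type u₁} {F : Type u₂} {k : Type u₃} {Fk : Type u₄}
  [Field K] [Field F] [Algebra K F] [Field k] [Field Fk] [Algebra k Fk]

namespace RedDatum

variable (R : RedDatum K F k Fk)

/-- If `D` is non-negative on the fibre of `r` through `a`, then `D a ≤ (r_* D)(r a)`. -/
theorem le_mapDomain_apply {α β : Type*} (r : α → β) (D : α →₀ ℤ) (a : α)
    (h : ∀ a', r a' = r a → 0 ≤ D a') : D a ≤ Finsupp.mapDomain r D (r a) := by
  classical
  rw [Finsupp.mapDomain, Finsupp.sum_apply]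
  show D a ≤ ∑ a' ∈ D.support, (Finsupp.single (r a') (D a')) (r a)
  have hnn : ∀ a' ∈ D.support, 0 ≤ (Finsupp.single (r a') (D a')) (r a) := by
    intro a' _
    rw [Finsupp.single_apply]
    split_ifs with h1
    · exact h a' h1
    · exact le_rfl
  by_cases ha : a ∈ D.support
  · have := Finset.single_le_sum hnn ha
    rwa [Finsupp.single_eq_same] at this
  · rw [Finsupp.notMem_support_iff.mp ha]
    exact Finset.sum_nonneg hnn

/-- A constant outside `V` has its inverse in
`V` with zero reduction. -/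
theorem red_inv_eq_zero {c : K} (hc : algebraMap K F c ∉ R.V) :
    ∃ h : algebraMap K F c⁻¹ ∈ R.V, R.red ⟨_, h⟩ = 0 := by
  have hinv := (R.const_total c).resolve_left hc
  refine ⟨hinv, ?_⟩
  by_contra hne
  have := R.red_const_unit _ hinv hne
  rw [inv_inv] at this
  exact hc this

/-- **D1, maximum principle.**  Let `f ∈ V` have no poles in the residue disc of `P` and value
`c` at `P`.  Then `c` is integral and `red f` has the value `red c` at `r P`. -/
theorem max_principle [FF1 K F] (P : Place K F) {f : F} (hf : f ∈ R.V)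
    (hreg : ∀ Q, R.r Q = R.r P → 0 ≤ Q.ord f) {c : K}
    (hc : f - algebraMap K F c = 0 ∨ 0 < P.ord (f - algebraMap K F c)) :
    ∃ hcV : algebraMap K F c ∈ R.V,
      R.red ⟨f, hf⟩ - R.red ⟨_, hcV⟩ = 0 ∨
        0 < (R.r P).ord (R.red ⟨f, hf⟩ - R.red ⟨_, hcV⟩) := by
  -- regularity of `f - c'` and `c' f` on the disc
  have hmemQ : ∀ Q, R.r Q = R.r P → f ∈ Q.toValuationSubring := fun Q hQ =>
    mem_of_ord_nonneg Q (hreg Q hQ)
  -- Step 1: `c` is integral
  have hcV : algebraMap K F c ∈ R.V := by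
    by_contra hcV
    obtain ⟨hinv, hred0⟩ := R.red_inv_eq_zero hcV
    have hc0 : c ≠ 0 := by
      rintro rfl
      apply hcV
      rw [map_zero]
      exact R.V.zero_mem
    set g : F := algebraMap K F c⁻¹ * f - 1 with hg
    have hgV : g ∈ R.V := R.V.sub_mem (R.V.mul_mem hinv hf) R.V.one_mem
    have hgred : R.red ⟨g, hgV⟩ = -1 := by
      have : (⟨g, hgV⟩ : R.V) = ⟨_, hinv⟩ * ⟨f, hf⟩ - 1 := Subtype.ext rfl
      rw [this, map_sub, map_mul, hred0, zero_mul, map_one, zero_sub]
    have hgred0 : R.red ⟨g, hgV⟩ ≠ 0 := by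
      rw [hgred]; exact neg_ne_zero.mpr one_ne_zero
    have hg0 : g ≠ 0 := by
      rintro h0
      apply hgred0
      have : (⟨g, hgV⟩ : R.V) = 0 := Subtype.ext h0
      rw [this, map_zero]
    have hgeq : g = algebraMap K F c⁻¹ * (f - algebraMap K F c) := by
      rw [hg, mul_sub, ← map_mul, inv_mul_cancel₀ hc0, map_one]
    have hcinv0 : algebraMap K F c⁻¹ ≠ 0 := by
      rw [Ne, map_eq_zero]; exact inv_ne_zero hc0
    have hordP : 0 < P.ord g := by
      rcases hc with h0 | hpos
      · exact absurd (by rw [hgeq, h0, mul_zero]) hg0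
      · have hfc0 : f - algebraMap K F c ≠ 0 := by
          rintro h0
          exact hg0 (by rw [hgeq, h0, mul_zero])
        rw [hgeq, P.ord_mul hcinv0 hfc0, ord_algebraMap, zero_add]
        exact hpos
    have hE := R.ord_red g hgV hgred0 (divOf g hg0) (fun Q => divOf_apply g hg0 Q) (R.r P)
    have hle := le_mapDomain_apply R.r (divOf g hg0) P (fun Q hQ => by
      rw [divOf_apply]
      apply ord_nonneg_of_mem
      exact sub_mem (mul_mem (Q.algebraMap_mem' _) (hmemQ Q hQ)) (one_mem _))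
    rw [hE, divOf_apply, hgred, ord_neg, Place.ord_one] at hle
    omega
  refine ⟨hcV, ?_⟩
  -- Step 2: the value of the reduction
  set h : F := f - algebraMap K F c with hh
  have hhV : h ∈ R.V := R.V.sub_mem hf hcV
  have hhred : R.red ⟨h, hhV⟩ = R.red ⟨f, hf⟩ - R.red ⟨_, hcV⟩ := by
    have : (⟨h, hhV⟩ : R.V) = ⟨f, hf⟩ - ⟨_, hcV⟩ := Subtype.ext rfl
    rw [this, map_sub]
  rw [← hhred]
  by_cases hred0 : R.red ⟨h, hhV⟩ = 0
  · exact Or.inl hred0
  right
  have hh0 : h ≠ 0 := by
    rintro h0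
    apply hred0
    have : (⟨h, hhV⟩ : R.V) = 0 := Subtype.ext h0
    rw [this, map_zero]
  have hordP : 0 < P.ord h := hc.resolve_left hh0
  have hE := R.ord_red h hhV hred0 (divOf h hh0) (fun Q => divOf_apply h hh0 Q) (R.r P)
  have hle := le_mapDomain_apply R.r (divOf h hh0) P (fun Q hQ => by
    rw [divOf_apply]
    apply ord_nonneg_of_mem
    exact sub_mem (hmemQ Q hQ) (Q.algebraMap_mem' _))
  rw [hE, divOf_apply] at hle
  omega

/-- **D2a**: the reduction of places is onto. -/
theorem r_surjective [FF1 K F] (hsurj : Function.Surjective R.red) :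
    Function.Surjective R.r := by
  classical
  intro Q
  obtain ⟨t, ht⟩ := exists_ord_eq_one Q
  obtain ⟨⟨f, hf⟩, hft⟩ := hsurj t
  have ht0 : t ≠ 0 := ne_zero_of_ord_ne_zero Q (by rw [ht]; exact one_ne_zero)
  have hred0 : R.red ⟨f, hf⟩ ≠ 0 := by rw [hft]; exact ht0
  have hf0 : f ≠ 0 := by
    rintro rfl
    exact hred0 (map_zero R.red)
  have hE := R.ord_red f hf hred0 (divOf f hf0) (fun P => divOf_apply f hf0 P) Q
  rw [hft, ht] at hE
  by_contra hne
  have hQ : Q ∉ Set.range R.r := fun ⟨P, hP⟩ => hne ⟨P, hP⟩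
  rw [Finsupp.mapDomain_of_notMem_range _ _ hQ] at hE
  exact zero_ne_one hE

/-- **D2b**: principal divisors specialise to principal divisors. -/
theorem mapDomain_mem_principal
    (hscale : ∀ f : F, f ≠ 0 → ∃ c : K, c ≠ 0 ∧ ∃ h : algebraMap K F c * f ∈ R.V,
      R.red ⟨_, h⟩ ≠ 0)
    {D : Divisor K F} (hD : D ∈ Divisor.principal (K := K) (F := F)) :
    Finsupp.mapDomain R.r D ∈ Divisor.principal (K := k) (F := Fk) := by
  obtain ⟨f, hf0, hDf⟩ := hD
  obtain ⟨c, hc0, hV, hred⟩ := hscale f hf0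
  refine ⟨R.red ⟨_, hV⟩, hred, fun Q => ?_⟩
  refine R.ord_red _ hV hred D (fun P => ?_) Q
  have hc0' : algebraMap K F c ≠ 0 := by rwa [Ne, map_eq_zero]
  rw [hDf P, P.ord_mul hc0' hf0, ord_algebraMap, zero_add]

/-- Specialisation of divisors of degree zero. -/
def spDegZero [FF1 K F] [FF1 k Fk] :
    Divisor.degZero (K := K) (F := F) →+ Divisor.degZero (K := k) (F := Fk) :=
  ((Finsupp.mapDomain.addMonoidHom R.r).domRestrict _).codRestrict _ fun D => by
    rw [Divisor.mem_degZero]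
    show Divisor.degree (Finsupp.mapDomain R.r (D : Divisor K F)) = 0
    rw [R.degree_mapDomain]
    exact D.2

@[simp]
theorem coe_spDegZero [FF1 K F] [FF1 k Fk] (D : Divisor.degZero (K := K) (F := F)) :
    (R.spDegZero D : Divisor k Fk) = Finsupp.mapDomain R.r (D : Divisor K F) := rfl

/-- **D2b**: the specialisation homomorphism `sp : Pic0 K F →+ Pic0 k Fk`. -/
def sp [FF1 K F] [FF1 k Fk]
    (hscale : ∀ f : F, f ≠ 0 → ∃ c : K, c ≠ 0 ∧ ∃ h : algebraMap K F c * f ∈ R.V,
      R.red ⟨_, h⟩ ≠ 0) :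
    Pic0 K F →+ Pic0 k Fk :=
  QuotientAddGroup.map _ _ R.spDegZero (by
    rintro ⟨D, hD0⟩ hD
    simp only [AddSubgroup.mem_addSubgroupOf] at hD ⊢
    exact R.mapDomain_mem_principal hscale hD)

theorem sp_mk [FF1 K F] [FF1 k Fk]
    (hscale : ∀ f : F, f ≠ 0 → ∃ c : K, c ≠ 0 ∧ ∃ h : algebraMap K F c * f ∈ R.V,
      R.red ⟨_, h⟩ ≠ 0)
    (D : Divisor.degZero (K := K) (F := F)) :
    R.sp hscale (Pic0.mk D) = Pic0.mk (R.spDegZero D) := rfl

end RedDatum

end Fermat.Agent.S19.H195
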