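import Fermat.Agent.A3.H799.GoodRed
import Fermat.Agent.S19.H195.MaxPrinciple

/-!
# A3 / LOCAL D1–D2 for the frozen interface `GoodRed` (helper195)

`GoodRed K F k Fk` (architect helper799, `Fermat/Agent/A3/H799/GoodRed.lean`) is converted into the
lighter `RedDatum` of `RedDatum.lean`, and the results D1–D2 of the LOCAL plan
(origin/helper979:coord/A3-helper979.md §3) are stated for `GoodRed`:

* `GoodRed.max_principle`   **D1**: `f ∈ O` without poles in the residue disc of `P`, `f(P) = c`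
  ⟹ `c ∈ V` and `(red f)(r P) = res c`;
* `GoodRed.r_surjective`    **D2**: `r` is onto;
* `GoodRed.sp`              **D2**: specialisation `Pic0 K F →+ Pic0 k Fk`, `sp [D] = [r_* D]`;
* `GoodRed.ell_le`          **D2**: `ℓ(D) ≤ ℓ(r_* D)`;
* `GoodRed.exists_lift`     **D2**: for `deg D > 2g - 2` every element of `L(r_* D)` is the
  reduction of an element of `L(D) ∩ O`;  `GoodRed.ell_eq`: then `ℓ(D) = ℓ(r_* D)`;
* `GoodRed.exists_lattice_basis`  orthonormal basis of `L(D)` reducing to a basis of `L(r_* D)`,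
  with the lattice property (`L(D) ∩ O = ⊕ V wᵢ`).
-/

set_option autoImplicit false

noncomputable section

open AlgebraicCurve Fermat.Agent.Lib.RR

namespace Fermat.Agent.S19.H195

open Fermat.Agent.A3.H799

universe u₁ u₂ u₃ u₄

variable {K : Type u₁} {F : Type u₂} {k : Type u₃} {Fk : Type u₄}
  [Field K] [Field F] [Algebra K F] [Field k] [Field Fk] [Algebra k Fk]

/-- The `RedDatum` underlying a `GoodRed`. -/
def ofGoodRed (𝓡 : GoodRed K F k Fk) : RedDatum K F k Fk where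
  V := 𝓡.O.toSubring
  red := 𝓡.red
  r := 𝓡.r
  const_total := fun a => by
    rcases 𝓡.O.mem_or_inv_mem (algebraMap K F a) with h | h
    · exact Or.inl h
    · right
      rw [map_inv₀]
      exact h
  red_const := fun a h =>
    ⟨𝓡.res ⟨a, (𝓡.algebraMap_mem a).mp h⟩, 𝓡.red_algebraMap ⟨a, (𝓡.algebraMap_mem a).mp h⟩ h⟩
  red_const_surj := fun b => by
    obtain ⟨a, ha⟩ := 𝓡.res_surjective b
    have h : algebraMap K F (a : K) ∈ 𝓡.O := (𝓡.algebraMap_mem a).mpr a.2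
    exact ⟨a, h, by rw [← ha]; exact 𝓡.red_algebraMap a h⟩
  red_const_unit := fun a h hne => by
    have haV : a ∈ 𝓡.V := (𝓡.algebraMap_mem a).mp h
    have hres : 𝓡.res ⟨a, haV⟩ ≠ 0 := by
      intro h0
      apply hne
      have := 𝓡.red_algebraMap ⟨a, haV⟩ h
      rw [h0, map_zero] at this
      exact this
    have hnu : a ∉ 𝓡.V.nonunits := fun hn => hres ((𝓡.res_eq_zero ⟨a, haV⟩).mpr hn)
    rw [ValuationSubring.mem_nonunits_iff_exists_mem_maximalIdeal] at hnu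
    have hunit : IsUnit (⟨a, haV⟩ : 𝓡.V) := by
      by_contra hnot
      exact hnu ⟨haV, (IsLocalRing.mem_maximalIdeal _).mpr hnot⟩
    obtain ⟨u, hu⟩ := hunit
    have hinv : a⁻¹ ∈ 𝓡.V := by
      have h1 : ((u⁻¹ : (𝓡.V)ˣ) : 𝓡.V) * ⟨a, haV⟩ = 1 := by
        rw [← hu]; exact Units.inv_mul u
      have h2 : (((u⁻¹ : (𝓡.V)ˣ) : 𝓡.V) : K) * a = 1 := congrArg Subtype.val h1
      have ha0 : a ≠ 0 := by
        rintro rfl
        rw [mul_zero] at h2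
        exact zero_ne_one h2
      have h3 : a⁻¹ = (((u⁻¹ : (𝓡.V)ˣ) : 𝓡.V) : K) :=
        (eq_inv_of_mul_eq_one_left h2).symm
      rw [h3]
      exact Subtype.mem _
    exact (𝓡.algebraMap_mem a⁻¹).mpr hinv
  ord_red := fun u hu hne D hD Q => 𝓡.div_red ⟨u, hu⟩ hne D hD Q


namespace GoodRedLemmas

variable (𝓡 : GoodRed K F k Fk)

/-- The scaling axiom of `RedDatum` lemmas, from `gauss`. -/
theorem hscale : ∀ f : F, f ≠ 0 → ∃ c : K, c ≠ 0 ∧
    ∃ h : algebraMap K F c * f ∈ (ofGoodRed 𝓡).V, (ofGoodRed 𝓡).red ⟨_, h⟩ ≠ 0 :=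
  fun f hf => 𝓡.gauss f hf

/-- Every Riemann–Roch space has an orthonormal basis. -/
theorem orthOn (D : Divisor K F) : (ofGoodRed 𝓡).OrthOn (riemannRochSpace D) := by
  obtain ⟨n, b, hli, hmem, hspan, -⟩ := 𝓡.orthonormal D
  exact ⟨n, fun i => ((b i : 𝓡.O) : F), fun i => (b i).2, hmem, hspan.ge, hli⟩

/-- **D1, maximum principle.** -/
theorem max_principle (P : Place K F) (f : 𝓡.O)
    (hreg : ∀ Q, 𝓡.r Q = 𝓡.r P → 0 ≤ Q.ord (f : F)) {c : K}
    (hc : (f : F) - algebraMap K F c = 0 ∨ 0 < P.ord ((f : F) - algebraMap K F c)) :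
    ∃ hcV : c ∈ 𝓡.V,
      𝓡.red f - algebraMap k Fk (𝓡.res ⟨c, hcV⟩) = 0 ∨
        0 < (𝓡.r P).ord (𝓡.red f - algebraMap k Fk (𝓡.res ⟨c, hcV⟩)) := by
  have := 𝓡.ff1
  obtain ⟨hcO, h⟩ := (ofGoodRed 𝓡).max_principle P f.2 hreg hc
  have hcV : c ∈ 𝓡.V := (𝓡.algebraMap_mem c).mp hcO
  refine ⟨hcV, ?_⟩
  have h1 : (ofGoodRed 𝓡).red ⟨_, hcO⟩ = algebraMap k Fk (𝓡.res ⟨c, hcV⟩) :=
    𝓡.red_algebraMap ⟨c, hcV⟩ hcO
  rw [h1] at h
  exact h

/-- **D2**: `r` is onto. -/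
theorem r_surjective : Function.Surjective 𝓡.r := by
  have := 𝓡.ff1
  exact (ofGoodRed 𝓡).r_surjective 𝓡.red_surjective

/-- **D2**: principal divisors specialise to principal divisors. -/
theorem mapDomain_mem_principal {D : Divisor K F}
    (hD : D ∈ Divisor.principal (K := K) (F := F)) :
    Finsupp.mapDomain 𝓡.r D ∈ Divisor.principal (K := k) (F := Fk) :=
  (ofGoodRed 𝓡).mapDomain_mem_principal (hscale 𝓡) hD

/-- **D2**: reduction preserves degrees. -/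
theorem degree_mapDomain (D : Divisor K F) :
    Divisor.degree (Finsupp.mapDomain 𝓡.r D) = Divisor.degree D := by
  have := 𝓡.ff1
  have := 𝓡.ff1k
  exact (ofGoodRed 𝓡).degree_mapDomain D

/-- **D2**: the specialisation homomorphism `sp : Pic0 K F →+ Pic0 k Fk`. -/
def sp : Pic0 K F →+ Pic0 k Fk :=
  haveI := 𝓡.ff1
  haveI := 𝓡.ff1k
  (ofGoodRed 𝓡).sp (hscale 𝓡)

theorem sp_mk (D : Divisor.degZero (K := K) (F := F)) :
    ((sp 𝓡 (Pic0.mk D) : Pic0 k Fk)) =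
      Pic0.mk ⟨Finsupp.mapDomain 𝓡.r (D : Divisor K F), by
        rw [Divisor.mem_degZero, degree_mapDomain]; exact D.2⟩ := rfl

/-- **D2**: `red (L(D) ∩ O) ⊆ L(r_* D)`. -/
theorem red_mem (D : Divisor K F) (f : 𝓡.O) (hf : (f : F) ∈ riemannRochSpace D) :
    𝓡.red f ∈ riemannRochSpace (Finsupp.mapDomain 𝓡.r D) := by
  have := 𝓡.ff1
  exact (ofGoodRed 𝓡).redL_le D ((ofGoodRed 𝓡).red_mem_redL f.2 hf)

/-- **D2, semicontinuity**: `ℓ(D) ≤ ℓ(r_* D)`. -/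
theorem ell_le (D : Divisor K F) :
    haveI := 𝓡.ff1
    haveI := 𝓡.ff1k
    ell D ≤ ell (Finsupp.mapDomain 𝓡.r D) := by
  have := 𝓡.ff1
  have := 𝓡.ff1k
  exact (ofGoodRed 𝓡).ell_le_ell_mapDomain D (orthOn 𝓡 D)

/-- **D2, integral Riemann–Roch**: for `deg D > 2g - 2` every element of `L(r_* D)` is the
reduction of an integral function of `L(D)`. -/
theorem exists_lift (D : Divisor K F) (hD : 2 * (genusFF k Fk : ℤ) - 2 < Divisor.degree D)
    (g : Fk) (hg : g ∈ riemannRochSpace (Finsupp.mapDomain 𝓡.r D)) :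
    ∃ f : 𝓡.O, (f : F) ∈ riemannRochSpace D ∧ 𝓡.red f = g := by
  have := 𝓡.ff1
  have := 𝓡.ff1k
  have hg' : g ∈ (ofGoodRed 𝓡).redL D := by
    rw [(ofGoodRed 𝓡).redL_eq 𝓡.genus_eq.le D hD (orthOn 𝓡 D)]
    exact hg
  obtain ⟨f, hf, hfD, rfl⟩ := hg'
  exact ⟨⟨f, hf⟩, hfD, rfl⟩

/-- **D2**: for `deg D > 2g - 2`, `ℓ(D) = ℓ(r_* D) = deg D + 1 - g`. -/
theorem ell_eq (D : Divisor K F) (hD : 2 * (genusFF k Fk : ℤ) - 2 < Divisor.degree D) :
    haveI := 𝓡.ff1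
    haveI := 𝓡.ff1k
    ell D = ell (Finsupp.mapDomain 𝓡.r D) ∧
      (ell D : ℤ) = Divisor.degree D + 1 - (genusFF k Fk : ℤ) := by
  have := 𝓡.ff1
  have := 𝓡.ff1k
  exact (ofGoodRed 𝓡).ell_eq 𝓡.genus_eq.le D hD (orthOn 𝓡 D)

/-- **Lattice property** of an orthonormal family: if `∑ cᵢ bᵢ ∈ O` and the `red bᵢ` are
`k`-independent, then all `cᵢ ∈ V`. -/
theorem coeff_mem {ι : Type*} (b : ι → 𝓡.O) (hli : LinearIndependent k (fun i => 𝓡.red (b i)))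
    (s : Finset ι) (c : ι → K) (hf : ∑ i ∈ s, c i • ((b i : 𝓡.O) : F) ∈ 𝓡.O) :
    ∀ i ∈ s, c i ∈ 𝓡.V := fun i hi =>
  (𝓡.algebraMap_mem (c i)).mp
    ((ofGoodRed 𝓡).coeff_mem_of_red (fun i => ((b i : 𝓡.O) : F)) (fun i => (b i).2) hli s c hf i hi)

/-- **D2, basis form**: for `deg D > 2g - 2` there is a `K`-basis of `L(D)` in `O` whose
reductions form a `k`-basis of `L(r_* D)`, and `L(D) ∩ O = ⊕ V wᵢ`. -/
theorem exists_lattice_basis (D : Divisor K F)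
    (hD : 2 * (genusFF k Fk : ℤ) - 2 < Divisor.degree D) :
    ∃ (n : ℕ) (w : Fin n → 𝓡.O), (∀ i, ((w i : 𝓡.O) : F) ∈ riemannRochSpace D) ∧
      LinearIndependent K (fun i => ((w i : 𝓡.O) : F)) ∧
      Submodule.span K (Set.range fun i => ((w i : 𝓡.O) : F)) = riemannRochSpace D ∧
      LinearIndependent k (fun i => 𝓡.red (w i)) ∧
      Submodule.span k (Set.range fun i => 𝓡.red (w i))
        = riemannRochSpace (Finsupp.mapDomain 𝓡.r D) ∧
      ∀ f : 𝓡.O, (f : F) ∈ riemannRochSpace D →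
        ∃ c : Fin n → 𝓡.V, (f : F) = ∑ i, ((c i : 𝓡.V) : K) • ((w i : 𝓡.O) : F) := by
  have := 𝓡.ff1
  have := 𝓡.ff1k
  obtain ⟨w, hw, h1, h2, h3, h4, h5, h6⟩ :=
    (ofGoodRed 𝓡).exists_lattice_basis 𝓡.genus_eq.le D hD (orthOn 𝓡 D)
  refine ⟨_, fun i => ⟨w i, hw i⟩, h1, h2, h3, h4, h5, fun f hf => ?_⟩
  obtain ⟨c, hc, hfc⟩ := h6 f hf f.2
  exact ⟨fun i => ⟨c i, (𝓡.algebraMap_mem (c i)).mp (hc i)⟩, hfc⟩

end GoodRedLemmas

end Fermat.Agent.S19.H195
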