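import Mathlib

/-!
# A3 / WP-W4 (helper195): biorthogonal bases of integral lattices — the finite generation step

Pure algebra (Mathlib only).  This is the "FG base case" of W4: it PRODUCES the orthonormal basis
(and hence finite generation of the lattice) from *integral coefficient functionals*
(for us: the coefficients of the `q`-expansion).

Setting: `A ⊆ L` a subring of a field with a ring hom `π : A → k` to a field whose kernel consists
of non-units (`A` local, `k` its residue field); `M` an `L`-vector space (the function field),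
`V ⊆ M` a finite dimensional `L`-subspace (a Riemann–Roch space), `Λ ⊆ V` an `A`-submodule (the
integral functions of `V`), `red : Λ → W` a `π`-semilinear reduction.

Hypotheses:
* `hscale` every nonzero `f ∈ V` has a multiple `c • f ∈ Λ` with nonzero reduction;
* `coef i : M →ₗ[L] L`, `coefk i : W →ₗ[k] k` (`i ∈ ι`) coefficient functionals which are integral
  on `Λ` and compatible with reduction (`hcoef`), and separate the reductions (`hsep`).

Conclusion (`exists_biorthogonal_basis`): a finite set `J ⊆ ι` of pivot indices and `e : ι → M`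
with `e a ∈ Λ`, `coef b (e a) = δ_ab` (`a, b ∈ J`), such that `(e a)_{a ∈ J}` is an `L`-basis of
`V`, an `A`-basis of `Λ`, and its reductions are `k`-linearly independent.
`exists_orthonormal_fin` is the same with index type `Fin n`; `lattice_fg` is finite generation.
-/

set_option autoImplicit false

open Module

namespace Fermat.Agent.S19.H195

section Biorth

variable {A : Type*} [CommRing A] {L : Type*} [Field L] [Algebra A L]
variable {M : Type*} [AddCommGroup M] [Module L M] [Module A M] [IsScalarTower A L M]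
variable {k : Type*} [Field k] {W : Type*} [AddCommGroup W] [Module k W]
variable {ι : Type*}

/-- A biorthogonal system: `e a ∈ Λ` and `coef b (e a) = δ_ab` for `a, b ∈ J`. -/
def IsBiorth (Λ : Submodule A M) (coef : ι → M →ₗ[L] L) (J : Finset ι) (e : ι → M) : Prop :=
  (∀ a ∈ J, e a ∈ Λ) ∧ (∀ a ∈ J, coef a (e a) = 1) ∧ ∀ a ∈ J, ∀ b ∈ J, a ≠ b → coef b (e a) = 0

theorem IsBiorth.coef_sum {Λ : Submodule A M} {coef : ι → M →ₗ[L] L} {J : Finset ι}
    {e : ι → M} (h : IsBiorth Λ coef J e) (g : ι → L) {b : ι} (hb : b ∈ J) :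
    coef b (∑ a ∈ J, g a • e a) = g b := by
  classical
  rw [map_sum]
  rw [Finset.sum_eq_single b]
  · rw [map_smul, h.2.1 b hb, smul_eq_mul, mul_one]
  · intro a ha hab
    rw [map_smul, h.2.2 a ha b hb hab, smul_eq_mul, mul_zero]
  · intro hb'
    exact absurd hb hb'

theorem IsBiorth.linearIndependent {Λ : Submodule A M} {coef : ι → M →ₗ[L] L} {J : Finset ι}
    {e : ι → M} (h : IsBiorth Λ coef J e) : LinearIndependent L (fun a : J => e a) := by
  classical
  rw [linearIndependent_iff']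
  intro s g hg b hb
  -- extend `g` by zero
  let g' : ι → L := fun a => if ha : a ∈ J then (if (⟨a, ha⟩ : J) ∈ s then g ⟨a, ha⟩ else 0) else 0
  have hsum : ∑ a ∈ J, g' a • e a = 0 := by
    rw [← Finset.sum_attach J (fun a => g' a • e a), ← Finset.univ_eq_attach, ← hg]
    symm
    have h1 : ∑ i ∈ s, g i • e ↑i = ∑ i ∈ s, g' ↑i • e ↑i :=
      Finset.sum_congr rfl fun a ha => by
        simp only [g', a.2, dif_pos, Subtype.coe_eta, if_pos ha]
    rw [h1]
    refine Finset.sum_subset (Finset.subset_univ s) fun a _ ha => ?_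
    simp only [g', a.2, dif_pos, Subtype.coe_eta, if_neg ha, zero_smul]
  have := h.coef_sum g' b.2
  rw [hsum, map_zero] at this
  simp only [g', b.2, dif_pos, Subtype.coe_eta, if_pos hb] at this
  exact this.symm


section Main

variable (π : A →+* k) (V : Submodule L M) (Λ : Submodule A M) (red : Λ →+ W)
  (coef : ι → M →ₗ[L] L) (coefk : ι → W →ₗ[k] k)

/-- One step: a biorthogonal system with fewer than `dim V` elements can be enlarged. -/
theorem IsBiorth.extend [FiniteDimensional L V]
    (hπ : ∀ a : A, π a ≠ 0 → IsUnit a)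
    (hΛV : ∀ f ∈ Λ, f ∈ V)
    (hscale : ∀ f ∈ V, f ≠ 0 → ∃ c : L, c ≠ 0 ∧ ∃ h : c • f ∈ Λ, red ⟨c • f, h⟩ ≠ 0)
    (hcoef : ∀ i (f : Λ), ∃ a : A, algebraMap A L a = coef i (f : M) ∧ π a = coefk i (red f))
    (hsep : ∀ f : Λ, (∀ i, coefk i (red f) = 0) → red f = 0)
    {J : Finset ι} {e : ι → M} (h : IsBiorth Λ coef J e) (hlt : J.card < finrank L V) :
    ∃ (J' : Finset ι) (e' : ι → M), J'.card = J.card + 1 ∧ IsBiorth Λ coef J' e' := by
  classical
  -- the span of the `e a` is a proper subspace of `V`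
  have hS_le : Submodule.span L ((J.image e : Finset M) : Set M) ≤ V := by
    rw [Submodule.span_le]
    intro x hx
    obtain ⟨a, ha, rfl⟩ := Finset.mem_image.mp (Finset.mem_coe.mp hx)
    exact hΛV _ (h.1 a ha)
  have hS_ne : Submodule.span L ((J.image e : Finset M) : Set M) ≠ V := by
    intro heq
    have h1 := finrank_span_finset_le_card (R := L) (J.image e)
    unfold Set.finrank at h1
    rw [heq] at h1
    have h2 := Finset.card_image_le (s := J) (f := e)
    omega
  obtain ⟨w, hwV, hwS⟩ := SetLike.exists_of_lt (lt_of_le_of_ne hS_le hS_ne)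
  set w' : M := w - ∑ a ∈ J, coef a w • e a with hw'
  have hw'V : w' ∈ V :=
    V.sub_mem hwV (V.sum_mem fun a ha => V.smul_mem _ (hΛV _ (h.1 a ha)))
  have hw'0 : w' ≠ 0 := by
    intro h0
    apply hwS
    have : w = ∑ a ∈ J, coef a w • e a := sub_eq_zero.mp h0
    rw [this]
    refine Submodule.sum_mem _ fun a ha => Submodule.smul_mem _ _ (Submodule.subset_span ?_)
    exact Finset.mem_coe.mpr (Finset.mem_image_of_mem e ha)
  have hcoefw' : ∀ b ∈ J, coef b w' = 0 := by
    intro b hb
    rw [hw', map_sub, h.coef_sum (fun a => coef a w) hb, sub_self]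
  obtain ⟨c, -, hcΛ, hcred⟩ := hscale w' hw'V hw'0
  -- the pivot
  obtain ⟨i₀, hi₀⟩ : ∃ i₀, coefk i₀ (red ⟨c • w', hcΛ⟩) ≠ 0 := by
    by_contra hall
    push Not at hall
    exact hcred (hsep _ hall)
  obtain ⟨a₀, ha₀, ha₀k⟩ := hcoef i₀ ⟨c • w', hcΛ⟩
  have ha₀u : IsUnit a₀ := hπ a₀ (by rw [ha₀k]; exact hi₀)
  obtain ⟨u, rfl⟩ := ha₀u
  have hu0 : algebraMap A L (u : A) ≠ 0 := (u.isUnit.map (algebraMap A L)).ne_zero
  have hi₀J : i₀ ∉ J := by
    intro hJ
    apply hu0
    rw [ha₀]
    show coef i₀ (c • w') = 0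
    rw [map_smul, hcoefw' i₀ hJ, smul_zero]
  -- the new vector
  set en : M := ((u⁻¹ : Aˣ) : A) • (c • w') with hen
  have henΛ : en ∈ Λ := Λ.smul_mem _ hcΛ
  have hcoef_en : ∀ b, coef b en = algebraMap A L ((u⁻¹ : Aˣ) : A) * (c * coef b w') := by
    intro b
    rw [hen, ← algebraMap_smul L (((u⁻¹ : Aˣ) : A)) (c • w'), map_smul, map_smul, smul_eq_mul,
      smul_eq_mul]
  have hen₀ : coef i₀ en = 1 := by
    rw [hen, ← algebraMap_smul L (((u⁻¹ : Aˣ) : A)) (c • w'), map_smul]
    have : coef i₀ (c • w') = algebraMap A L (u : A) := ha₀.symm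
    rw [this, smul_eq_mul, ← map_mul, Units.inv_mul, map_one]
  have henJ : ∀ b ∈ J, coef b en = 0 := by
    intro b hb
    rw [hcoef_en, hcoefw' b hb, mul_zero, mul_zero]
  refine ⟨insert i₀ J, fun a => if a = i₀ then en else e a - coef i₀ (e a) • en,
    Finset.card_insert_of_notMem hi₀J, ?_, ?_, ?_⟩
  · intro a ha
    rcases Finset.mem_insert.mp ha with rfl | haJ
    · simp only [if_true]; exact henΛ
    · have hne : a ≠ i₀ := fun h0 => hi₀J (h0 ▸ haJ)
      simp only [if_neg hne]
      obtain ⟨a', ha', -⟩ := hcoef i₀ ⟨e a, h.1 a haJ⟩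
      have : coef i₀ (e a) • en = a' • en := by
        rw [← algebraMap_smul L a' en, ha']
      rw [this]
      exact Λ.sub_mem (h.1 a haJ) (Λ.smul_mem _ henΛ)
  · intro a ha
    rcases Finset.mem_insert.mp ha with rfl | haJ
    · simp only [if_true]; exact hen₀
    · have hne : a ≠ i₀ := fun h0 => hi₀J (h0 ▸ haJ)
      simp only [if_neg hne]
      rw [map_sub, map_smul, h.2.1 a haJ, henJ a haJ, smul_zero, sub_zero]
  · intro a ha b hb hab
    rcases Finset.mem_insert.mp ha with rfl | haJ
    · simp only [if_true]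
      rcases Finset.mem_insert.mp hb with rfl | hbJ
      · exact absurd rfl hab
      · exact henJ b hbJ
    · have hne : a ≠ i₀ := fun h0 => hi₀J (h0 ▸ haJ)
      simp only [if_neg hne]
      rcases Finset.mem_insert.mp hb with rfl | hbJ
      · rw [map_sub, map_smul, hen₀, smul_eq_mul, mul_one, sub_self]
      · rw [map_sub, map_smul, h.2.2 a haJ b hbJ hab, henJ b hbJ, smul_zero, sub_zero]

/-- Biorthogonal systems of every size `m ≤ dim V` exist. -/
theorem exists_isBiorth_card [FiniteDimensional L V]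
    (hπ : ∀ a : A, π a ≠ 0 → IsUnit a)
    (hΛV : ∀ f ∈ Λ, f ∈ V)
    (hscale : ∀ f ∈ V, f ≠ 0 → ∃ c : L, c ≠ 0 ∧ ∃ h : c • f ∈ Λ, red ⟨c • f, h⟩ ≠ 0)
    (hcoef : ∀ i (f : Λ), ∃ a : A, algebraMap A L a = coef i (f : M) ∧ π a = coefk i (red f))
    (hsep : ∀ f : Λ, (∀ i, coefk i (red f) = 0) → red f = 0) :
    ∀ m : ℕ, m ≤ finrank L V → ∃ (J : Finset ι) (e : ι → M), J.card = m ∧ IsBiorth Λ coef J e := by
  classical
  intro m
  induction m with
  | zero =>
    intro _
    exact ⟨∅, fun _ => 0, rfl, by simp [IsBiorth]⟩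
  | succ m ih =>
    intro hm
    obtain ⟨J, e, hJ, hJe⟩ := ih (by omega)
    obtain ⟨J', e', hJ', he'⟩ :=
      hJe.extend π V Λ red coef coefk hπ hΛV hscale hcoef hsep (by omega)
    exact ⟨J', e', by rw [hJ', hJ], he'⟩


/-- **Biorthogonal basis** of an integral lattice with integral coefficient functionals. -/
theorem exists_biorthogonal_basis [FiniteDimensional L V]
    (hinj : Function.Injective (algebraMap A L))
    (hπ : ∀ a : A, π a ≠ 0 → IsUnit a)
    (hΛV : ∀ f ∈ Λ, f ∈ V)
    (hscale : ∀ f ∈ V, f ≠ 0 → ∃ c : L, c ≠ 0 ∧ ∃ h : c • f ∈ Λ, red ⟨c • f, h⟩ ≠ 0)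
    (hcoef : ∀ i (f : Λ), ∃ a : A, algebraMap A L a = coef i (f : M) ∧ π a = coefk i (red f))
    (hsep : ∀ f : Λ, (∀ i, coefk i (red f) = 0) → red f = 0) :
    ∃ (J : Finset ι) (e : ι → M) (he : ∀ a ∈ J, e a ∈ Λ),
      IsBiorth Λ coef J e ∧ J.card = finrank L V ∧
      LinearIndependent L (fun a : J => e a) ∧
      Submodule.span L (Set.range fun a : J => e a) = V ∧
      Submodule.span A (Set.range fun a : J => e a) = Λ ∧
      LinearIndependent k (fun a : J => red ⟨e a, he a a.2⟩) := by
  classical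
  obtain ⟨J, e, hJ, hJe⟩ :=
    exists_isBiorth_card π V Λ red coef coefk hπ hΛV hscale hcoef hsep (finrank L V) le_rfl
  have hli := hJe.linearIndependent
  have hspanL : Submodule.span L (Set.range fun a : J => e a) = V := by
    apply Submodule.eq_of_le_of_finrank_le
    · rw [Submodule.span_le]
      rintro _ ⟨a, rfl⟩
      exact hΛV _ (hJe.1 a a.2)
    · rw [finrank_span_eq_card hli, Fintype.card_coe, hJ]
  refine ⟨J, e, hJe.1, hJe, hJ, hli, hspanL, ?_, ?_⟩
  · apply le_antisymm
    · rw [Submodule.span_le]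
      rintro _ ⟨a, rfl⟩
      exact hJe.1 a a.2
    · intro f hf
      have hfV : f ∈ Submodule.span L (Set.range fun a : J => e a) := by
        rw [hspanL]; exact hΛV f hf
      obtain ⟨g, hg⟩ := (Submodule.mem_span_range_iff_exists_fun L).mp hfV
      let g' : ι → L := fun a => if ha : a ∈ J then g ⟨a, ha⟩ else 0
      have hsum : ∑ a ∈ J, g' a • e a = f := by
        rw [← Finset.sum_attach J (fun a => g' a • e a), ← Finset.univ_eq_attach, ← hg]
        refine Finset.sum_congr rfl fun a _ => ?_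
        simp only [g', a.2, dif_pos, Subtype.coe_eta]
      rw [← hg]
      refine Submodule.sum_mem _ fun a _ => ?_
      obtain ⟨a', ha', -⟩ := hcoef a ⟨f, hf⟩
      have h1 : coef a f = g a := by
        have := hJe.coef_sum g' a.2
        rw [hsum] at this
        rw [this]
        simp only [g', a.2, dif_pos, Subtype.coe_eta]
      have h2 : g a • e a = a' • e (a : ι) := by
        rw [← algebraMap_smul L a' (e a), ha']
        show _ = coef a f • _
        rw [h1]
      rw [h2]
      exact Submodule.smul_mem _ _ (Submodule.subset_span ⟨a, rfl⟩)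
  · rw [linearIndependent_iff']
    intro s b hb a₀ ha₀
    have h1 := congrArg (coefk (a₀ : ι)) hb
    rw [map_zero, map_sum] at h1
    rw [Finset.sum_eq_single a₀] at h1
    · obtain ⟨a', ha', ha'k⟩ := hcoef a₀ ⟨e a₀, hJe.1 a₀ a₀.2⟩
      have : a' = 1 := by
        apply hinj
        rw [ha', map_one]
        exact hJe.2.1 a₀ a₀.2
      rw [map_smul, ← ha'k, this, map_one, smul_eq_mul, mul_one] at h1
      exact h1
    · intro a _ hne
      obtain ⟨a', ha', ha'k⟩ := hcoef a₀ ⟨e a, hJe.1 a a.2⟩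
      have : a' = 0 := by
        apply hinj
        rw [ha', map_zero]
        exact hJe.2.2 a a.2 a₀ a₀.2 (fun h => hne (Subtype.ext h))
      rw [map_smul, ← ha'k, this, map_zero, smul_zero]
    · intro h0
      exact absurd ha₀ h0

/-- `Fin n`-indexed form: an `L`-basis of `V`, `A`-basis of `Λ`, with `k`-independent
reductions. -/
theorem exists_orthonormal_fin [FiniteDimensional L V]
    (hinj : Function.Injective (algebraMap A L))
    (hπ : ∀ a : A, π a ≠ 0 → IsUnit a)
    (hΛV : ∀ f ∈ Λ, f ∈ V)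
    (hscale : ∀ f ∈ V, f ≠ 0 → ∃ c : L, c ≠ 0 ∧ ∃ h : c • f ∈ Λ, red ⟨c • f, h⟩ ≠ 0)
    (hcoef : ∀ i (f : Λ), ∃ a : A, algebraMap A L a = coef i (f : M) ∧ π a = coefk i (red f))
    (hsep : ∀ f : Λ, (∀ i, coefk i (red f) = 0) → red f = 0) :
    ∃ (n : ℕ) (e : Fin n → M) (he : ∀ i, e i ∈ Λ), n = finrank L V ∧
      LinearIndependent L e ∧ Submodule.span L (Set.range e) = V ∧
      Submodule.span A (Set.range e) = Λ ∧
      LinearIndependent k (fun i => red ⟨e i, he i⟩) := by
  classical
  obtain ⟨J, e, he, -, hJ, hli, hL, hA, hk⟩ :=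
    exists_biorthogonal_basis π V Λ red coef coefk hinj hπ hΛV hscale hcoef hsep
  let φ : Fin J.card ≃ J := J.equivFin.symm
  have hrange : Set.range (fun i : Fin J.card => e (φ i)) = Set.range fun a : J => e a :=
    φ.surjective.range_comp (fun a : J => e a)
  refine ⟨J.card, fun i => e (φ i), fun i => he _ (φ i).2, hJ, ?_, ?_, ?_, ?_⟩
  · exact hli.comp φ φ.injective
  · rw [hrange, hL]
  · rw [hrange, hA]
  · exact hk.comp φ φ.injective

/-- **Finite generation** of the integral lattice. -/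
theorem lattice_fg [FiniteDimensional L V]
    (hinj : Function.Injective (algebraMap A L))
    (hπ : ∀ a : A, π a ≠ 0 → IsUnit a)
    (hΛV : ∀ f ∈ Λ, f ∈ V)
    (hscale : ∀ f ∈ V, f ≠ 0 → ∃ c : L, c ≠ 0 ∧ ∃ h : c • f ∈ Λ, red ⟨c • f, h⟩ ≠ 0)
    (hcoef : ∀ i (f : Λ), ∃ a : A, algebraMap A L a = coef i (f : M) ∧ π a = coefk i (red f))
    (hsep : ∀ f : Λ, (∀ i, coefk i (red f) = 0) → red f = 0) :
    Λ.FG := by
  obtain ⟨n, e, -, -, -, -, hA, -⟩ :=
    exists_orthonormal_fin π V Λ red coef coefk hinj hπ hΛV hscale hcoef hsep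
  rw [← hA]
  exact Submodule.fg_span (Set.finite_range e)

end Main

end Biorth

end Fermat.Agent.S19.H195
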