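import Fermat.Agent.S19.H195.Biorth
import Fermat.Agent.S19.H315.IntegralRR
import Fermat.Agent.Lib.RR.Duality

/-!
# A3 / WP-W4 (helper195): the two missing inputs of helper315's `GaussDatum.exists_orthonormal_basis`

helper315's W4 core (`Fermat/Agent/S19/H315/IntegralRR.lean`, on main) needs
* **FG**   the integral lattice `L(E) ∩ O` is contained in a finitely generated `A`-module of
  integral functions, and
* **hdim** `dim_k L(r_* E) ≤ dim_L L(E)`.

This file supplies both:
* `lattice_fg_of_coef` : FG from *integral coefficient functionals* on the lattice (for the modular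
  function field: `q`-expansion coefficients; they are integral on `L(E) ∩ O` as soon as `E` is
  supported on the cusps, by normality of the model), via `Biorth.lean`;
* `finrank_le_of_genus_le` : hdim from Riemann–Roch (`Lib/RR`) on both fibres when the genus does
  not drop and `deg E > 2 g - 2`;
* `exists_orthonormal_basis_of_coef` : **W4 complete** — orthonormal basis of `L(E) ∩ O`, reducing
  to a basis of `L(r_* E)`;
* `exists_lift_of_coef` : every element of `L(r_* E)` lifts to `L(E) ∩ O`.
-/

set_option autoImplicit false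

open AlgebraicCurve Module Fermat.Agent.Lib.RR

namespace Fermat.Agent.S19.H195

open Fermat.Agent.S19.H315

variable {L : Type*} [Field L] {A : ValuationSubring L} {k : Type*} [Field k] {π : A →+* k}
variable {F : Type*} [Field F] [Algebra L F] {Fk : Type*} [Field Fk] [Algebra k Fk]
variable (G : GaussDatum A π F Fk)

/-- Reduction of divisors preserves the degree when all places have degree one. -/
theorem degree_mapDomain_of_FF1 [FF1 L F] [FF1 k Fk] (r : Place L F → Place k Fk)
    (D : Divisor L F) :
    Divisor.degree (Finsupp.mapDomain r D) = Divisor.degree D := by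
  induction D using Finsupp.induction with
  | zero => simp
  | single_add P n D _ _ ih =>
    rw [Finsupp.mapDomain_add, map_add, map_add, ih, Finsupp.mapDomain_single,
      Divisor.degree_single, Divisor.degree_single, deg_eq_one, deg_eq_one]

/-- **hdim**: Riemann–Roch on both fibres. -/
theorem finrank_le_of_genus_le [FF1 L F] [FF1 k Fk] (hg : genusFF L F ≤ genusFF k Fk)
    (E : Divisor L F) (hE : 2 * (genusFF k Fk : ℤ) - 2 < Divisor.degree E) :
    finrank k (riemannRochSpace (Finsupp.mapDomain G.r E)) ≤ finrank L (riemannRochSpace E) := by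
  have h1 := riemann_inequality_genusFF E
  have h2 : (ell (Finsupp.mapDomain G.r E) : ℤ)
      = Divisor.degree (Finsupp.mapDomain G.r E) + 1 - (genusFF k Fk : ℤ) :=
    ell_eq_of_degree_gt (by rw [degree_mapDomain_of_FF1]; exact hE)
  rw [degree_mapDomain_of_FF1] at h2
  have h3 : (genusFF L F : ℤ) ≤ genusFF k Fk := by exact_mod_cast hg
  have : (ell (Finsupp.mapDomain G.r E) : ℤ) ≤ ell E := by omega
  exact_mod_cast this

section Coef

variable {ι : Type*} (coef : ι → F →ₗ[L] L) (coefk : ι → Fk →ₗ[k] k)

/-- **FG**: the integral lattice `L(E) ∩ O` is finitely generated (indeed free with an orthonormal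
basis) as soon as there are coefficient functionals which are integral on it, compatible with
reduction, and separate the points of `Fk`. -/
theorem exists_orthonormal_fin_of_coef (hπ : ∀ a : A, π a ≠ 0 → IsUnit a) (E : Divisor L F)
    [FiniteDimensional L (riemannRochSpace E)]
    (hcoef : ∀ i (f : G.lattice E), ∃ a : A, (a : L) = coef i (f : F) ∧
      π a = coefk i (G.redLattice E f))
    (hsep : ∀ g : Fk, (∀ i, coefk i g = 0) → g = 0) :
    ∃ (n : ℕ) (e : Fin n → F) (he : ∀ i, e i ∈ G.lattice E),
      n = finrank L (riemannRochSpace E) ∧ LinearIndependent L e ∧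
      Submodule.span L (Set.range e) = riemannRochSpace E ∧
      Submodule.span A (Set.range e) = G.lattice E ∧
      LinearIndependent k (fun i => G.redLattice E ⟨e i, he i⟩) := by
  refine exists_orthonormal_fin π (riemannRochSpace E) (G.lattice E) (G.redLattice E) coef coefk
    Subtype.val_injective hπ (fun f hf => hf.2) ?_ hcoef (fun f hf => hsep _ hf)
  intro f hf hf0
  obtain ⟨c, hc, h, hred⟩ := G.exists_scale f hf0
  exact ⟨c, hc, ⟨h, Submodule.smul_mem _ _ hf⟩, hred⟩

theorem lattice_fg_of_coef (hπ : ∀ a : A, π a ≠ 0 → IsUnit a) (E : Divisor L F)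
    [FiniteDimensional L (riemannRochSpace E)]
    (hcoef : ∀ i (f : G.lattice E), ∃ a : A, (a : L) = coef i (f : F) ∧
      π a = coefk i (G.redLattice E f))
    (hsep : ∀ g : Fk, (∀ i, coefk i g = 0) → g = 0) :
    (G.lattice E).FG := by
  obtain ⟨n, e, -, -, -, -, hA, -⟩ := exists_orthonormal_fin_of_coef G coef coefk hπ E hcoef hsep
  rw [← hA]
  exact Submodule.fg_span (Set.finite_range e)

/-- **W4 complete**: for `deg E > 2 g - 2` (the genus not dropping), the integral lattice
`L(E) ∩ O` has an `A`-basis which is an `L`-basis of `L(E)` and whose reduction is a `k`-basis of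
`L(r_* E)`. -/
theorem exists_orthonormal_basis_of_coef [FF1 L F] [FF1 k Fk] (hπs : Function.Surjective π)
    (hπ : ∀ a : A, π a ≠ 0 → IsUnit a) (hg : genusFF L F ≤ genusFF k Fk)
    (E : Divisor L F) (hE : 2 * (genusFF k Fk : ℤ) - 2 < Divisor.degree E)
    (hcoef : ∀ i (f : G.lattice E), ∃ a : A, (a : L) = coef i (f : F) ∧
      π a = coefk i (G.redLattice E f))
    (hsep : ∀ g : Fk, (∀ i, coefk i g = 0) → g = 0) :
    ∃ (n : ℕ) (e : Fin n → F) (he : ∀ i, e i ∈ G.lattice E),
      n = finrank L (riemannRochSpace E) ∧ LinearIndependent L e ∧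
      Submodule.span L (Set.range e) = riemannRochSpace E ∧
      Submodule.span A (Set.range e) = G.lattice E ∧
      LinearIndependent k (fun i => G.redLattice E ⟨e i, he i⟩) ∧
      Submodule.span k (Set.range fun i => G.redLattice E ⟨e i, he i⟩)
        = riemannRochSpace (Finsupp.mapDomain G.r E) :=
  G.exists_orthonormal_basis hπs E (finrank_le_of_genus_le G hg E hE) (G.lattice E)
    (lattice_fg_of_coef G coef coefk hπ E hcoef hsep) (fun _ hn => hn.1) le_rfl

/-- **W4, lifting**: every element of `L(r_* E)` is the reduction of an integral function of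
`L(E)`. -/
theorem exists_lift_of_coef [FF1 L F] [FF1 k Fk] (hπs : Function.Surjective π)
    (hπ : ∀ a : A, π a ≠ 0 → IsUnit a) (hg : genusFF L F ≤ genusFF k Fk)
    (E : Divisor L F) (hE : 2 * (genusFF k Fk : ℤ) - 2 < Divisor.degree E)
    (hcoef : ∀ i (f : G.lattice E), ∃ a : A, (a : L) = coef i (f : F) ∧
      π a = coefk i (G.redLattice E f))
    (hsep : ∀ g : Fk, (∀ i, coefk i g = 0) → g = 0)
    (g : Fk) (hg' : g ∈ riemannRochSpace (Finsupp.mapDomain G.r E)) :
    ∃ f : G.lattice E, G.redLattice E f = g :=
  G.exists_lift hπs E (finrank_le_of_genus_le G hg E hE) (G.lattice E)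
    (lattice_fg_of_coef G coef coefk hπ E hcoef hsep) (fun _ hn => hn.1) le_rfl g hg'

end Coef

end Fermat.Agent.S19.H195
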