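import Fermat.Agent.S19.H195.GenusGood
import Fermat.Agent.S19.H195.RedDatum

/-!
# A3 / GR-GENUS (helper195), part 3: equal genus for a reduction datum with good charts

For `G : S37.Red.Datum A π F Fk` over algebraically closed constants, with `[FF1 K F]`,
`[FF1 k Fk]`:

* `GenusGood.redDatumOfDatum`  : the abstract `S19.H195.RedDatum` of `(G.O, G.ρ, r)`;
* `GenusGood.genusFF_ge_of_datum` : `g(F_k) ≤ g(F)` from a place map `r` with
  `r_* div u = div (ρ u)` and orthonormal bases of the `L(D)` (upper semicontinuity);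
* `GenusGood.genusFF_eq_of_good`  : **`genusFF K F = genusFF k Fk`** from `G.Good`, `r`, and the
  orthonormal bases.  This is the field `genus_eq` of `A3.H799.GoodRed` for ANY assembly whose
  `O`, `red` are those of a datum (`S37.Red.ModDatum`, `modO`/`modρ`, ...).
-/

set_option autoImplicit false
set_option linter.unusedSectionVars false

noncomputable section

open AlgebraicCurve

namespace Fermat.Agent.S19.H195

open Fermat.Agent.Lib.RR Fermat.Agent.S37.Red

namespace GenusGood

universe u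

variable {K k F Fk : Type u} [Field K] [Field k] [Field F] [Field Fk]
  [Algebra K F] [Algebra k Fk] {A : ValuationSubring K} {π : A →+* k} (G : Datum A π F Fk)

/-- the abstract reduction datum of `RedDatum.lean` attached to `(G.O, G.ρ, r)` -/
def redDatumOfDatum (r : Place K F → Place k Fk)
    (hr : ∀ (y : F) (hy : y ∈ G.O), G.ρ ⟨y, hy⟩ ≠ 0 → ∀ D : Divisor K F,
      (∀ P, D P = P.ord y) → ∀ Q, Finsupp.mapDomain r D Q = Q.ord (G.ρ ⟨y, hy⟩)) :
    RedDatum K F k Fk where
  V := G.O.toSubring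
  red := G.ρ
  r := r
  const_total a := by
    rcases A.mem_or_inv_mem a with h | h
    · exact Or.inl (G.const_mem ⟨a, h⟩)
    · exact Or.inr (G.const_mem ⟨a⁻¹, h⟩)
  red_const a h := ⟨π ⟨a, H160.mem_of_algebraMap_mem G h⟩,
    G.ρ_const ⟨a, H160.mem_of_algebraMap_mem G h⟩⟩
  red_const_surj b := by
    obtain ⟨a, rfl⟩ := G.π_surj b
    exact ⟨(a : K), G.const_mem a, G.ρ_const a⟩
  red_const_unit a h hne := by
    have := H160.inv_mem G h hne
    rwa [← map_inv₀] at this
  ord_red u hu hne D hD Q := hr u hu hne D hD Q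

/-- **Upper semicontinuity of the genus** for a datum. -/
theorem genusFF_ge_of_datum [FF1 K F] [FF1 k Fk] (r : Place K F → Place k Fk)
    (hr : ∀ (y : F) (hy : y ∈ G.O), G.ρ ⟨y, hy⟩ ≠ 0 → ∀ D : Divisor K F,
      (∀ P, D P = P.ord y) → ∀ Q, Finsupp.mapDomain r D Q = Q.ord (G.ρ ⟨y, hy⟩))
    (horth : ∀ D : Divisor K F, ∃ (n : ℕ) (b : Fin n → G.O),
      LinearIndependent k (fun i => G.ρ (b i)) ∧
      (∀ i, ((b i : G.O) : F) ∈ riemannRochSpace D) ∧
      Submodule.span K (Set.range fun i => ((b i : G.O) : F)) = riemannRochSpace D) :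
    genusFF k Fk ≤ genusFF K F := by
  refine (redDatumOfDatum G r hr).genusFF_le fun D => ?_
  obtain ⟨n, b, h1, h2, h3⟩ := horth D
  exact ⟨n, fun i => ((b i : G.O) : F), fun i => (b i).2, h2, h3.ge, h1⟩

/-- **GR-GENUS**: equal genus for a reduction datum with good charts, a place map compatible
with divisors, and orthonormal bases of the Riemann–Roch spaces. -/
theorem genusFF_eq_of_good [IsAlgClosed K] [IsAlgClosed k] [FF1 K F] [FF1 k Fk] (hG : G.Good)
    (r : Place K F → Place k Fk)
    (hr : ∀ (y : F) (hy : y ∈ G.O), G.ρ ⟨y, hy⟩ ≠ 0 → ∀ D : Divisor K F,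
      (∀ P, D P = P.ord y) → ∀ Q, Finsupp.mapDomain r D Q = Q.ord (G.ρ ⟨y, hy⟩))
    (horth : ∀ D : Divisor K F, ∃ (n : ℕ) (b : Fin n → G.O),
      LinearIndependent k (fun i => G.ρ (b i)) ∧
      (∀ i, ((b i : G.O) : F) ∈ riemannRochSpace D) ∧
      Submodule.span K (Set.range fun i => ((b i : G.O) : F)) = riemannRochSpace D) :
    genusFF K F = genusFF k Fk :=
  le_antisymm (genusFF_le_of_good G hG) (genusFF_ge_of_datum G r hr horth)

/-- The same with the place map in the form `S37.Red.IsRed`. -/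
theorem genusFF_eq_of_good_isRed [IsAlgClosed K] [IsAlgClosed k] [FF1 K F] [FF1 k Fk]
    (hG : G.Good) (r : Place K F → Place k Fk) (hr : IsRed G r)
    (horth : ∀ D : Divisor K F, ∃ (n : ℕ) (b : Fin n → G.O),
      LinearIndependent k (fun i => G.ρ (b i)) ∧
      (∀ i, ((b i : G.O) : F) ∈ riemannRochSpace D) ∧
      Submodule.span K (Set.range fun i => ((b i : G.O) : F)) = riemannRochSpace D) :
    genusFF K F = genusFF k Fk :=
  genusFF_eq_of_good G hG r hr.2 horth

end GenusGood

end Fermat.Agent.S19.H195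

end
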