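import Fermat.Agent.A3.H799.LocalSpec
import Fermat.Agent.S19.H255.NSP

/-!
# Cell A3 / LOCAL, leaf NSP (helper195)

`nspStatement : Fermat.Agent.A3.H799.NspStatement k Fk` — on the special fibre (an `FF1`
function field over an algebraically closed field) there are `g = genusFF` DISTINCT places
`Q₁, …, Q_g` with `ℓ(Q₁ + ⋯ + Q_g) = 1`.

Proof: helper255's `exists_reduced_nonspecial` (⇐ helper638's `exists_nonspecial`, Riemann's
theorem) gives a finset `T` of `g` places with `ℓ(divT T) = 1`; enumerate `T` by `Fin g`.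

`exists_nsp_avoiding` is the same with the places outside a prescribed finite set.
-/

set_option autoImplicit false

noncomputable section

open AlgebraicCurve

namespace Fermat.Agent.S19.H195

open Fermat.Agent.Lib.RR

/-- Enumerating a finset of places of cardinality `n` by `Fin n`: the sum of the primes is
`divT`. -/
theorem sum_single_enum_eq_divT {k Fk : Type*} [Field k] [Field Fk] [Algebra k Fk]
    (T : Finset (Place k Fk)) {n : ℕ} (e : Fin n ≃ T) :
    (∑ i, Finsupp.single ((e i : T) : Place k Fk) (1 : ℤ)) = H638.divT T := by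
  classical
  unfold H638.divT prim
  rw [← Finset.sum_coe_sort T (fun v => Finsupp.single v (1 : ℤ))]
  exact Fintype.sum_equiv e _ _ (fun _ => rfl)

/-- **NSP with avoidance**: `g` distinct places outside a finite set `S` with
`ℓ(Q₁ + ⋯ + Q_g) = 1`. -/
theorem exists_nsp_avoiding {k Fk : Type*} [Field k] [Field Fk] [Algebra k Fk]
    [FF1 k Fk] [Infinite k] (S : Finset (Place k Fk)) :
    ∃ Qs : Fin (genusFF k Fk) → Place k Fk, Function.Injective Qs ∧ (∀ i, Qs i ∉ S) ∧
      ell (∑ i, Finsupp.single (Qs i) (1 : ℤ)) = 1 := by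
  classical
  obtain ⟨T, hcard, hdisj, hell⟩ := Fermat.Agent.S19.H255.exists_reduced_nonspecial (K := k)
    (F := Fk) S
  let e : Fin (genusFF k Fk) ≃ T := (T.equivFinOfCardEq hcard).symm
  refine ⟨fun i => ((e i : T) : Place k Fk), ?_, ?_, ?_⟩
  · intro i j hij
    exact e.injective (Subtype.ext hij)
  · intro i hi
    exact (Finset.disjoint_left.mp hdisj (e i).2) hi
  · rw [sum_single_enum_eq_divT T e]
    exact hell

variable (k Fk : Type*) [Field k] [Field Fk] [Algebra k Fk]

/-- **Leaf NSP** of A3/LOCAL. -/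
theorem nspStatement : Fermat.Agent.A3.H799.NspStatement k Fk := by
  intro _ _
  obtain ⟨Qs, hinj, -, hell⟩ := exists_nsp_avoiding (k := k) (Fk := Fk) ∅
  exact ⟨Qs, hinj, hell⟩

end Fermat.Agent.S19.H195

end
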